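/-
S25 (Jacobian), package ATLAS/DIV, leaf BCback (helper2930): helper lemmas.

(A2) Recognition.  A line bundle `M` over `𝒞.chart R` with a section `s` in the divisor chart
`(b, h)` is the base change of any universal pair `U` over `S_b[1/h]` along the extension
`ψ : S_b[1/h] → R` of the point `hs.point : S_b → R`:

* `awayLift`, `awayLift_comp`            : the extension `ψ` of a point with `x h` invertible;
* `reg₁_of_isFreeOn`                     : `s₁` is regular (the zero ideal has finite free quotient,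
                                            hence is invertible by LIB `(Inv)`);
* `ι₁_injective`, `reg₂_of_reg₁`         : `s₂` is regular (`M₂ ⊆ M₁₂ ⊇ M₁`);
* `map_map_tensor`, `zeroIdeal₁_eq_map`  : `zeroIdeal₁ s = (zeroIdeal₁ σ).map ψ` by the Hilbert chart;
* `exists_isBC`                          : the statement of the leaf, through
                                            `H2930.isBC_of_zeroIdeal₁_map`.
-/
import Fermat.Agent.S25.ATLAS.DIV.Defs
import Fermat.Agent.S25.ATLAS.H2930.DivChart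
import Fermat.Agent.S25.Lib.Inv.Curve
import Fermat.Agent.S25.Lib.Chart.Facts3648

set_option autoImplicit false
set_option linter.style.haveILetI false
set_option linter.unusedSectionVars false

universe u

namespace Fermat.Agent.S25.ATLAS.DIV.BCback

open scoped TensorProduct

open Fermat.Agent.S25 Fermat.Agent.S25.GluedModule Fermat.Agent.S25.ATLAS
  Fermat.Agent.S25.ATLAS.H2890 Fermat.Agent.S25.ATLAS.HC2928 Fermat.Agent.S25.ATLAS.H2930

/-! ### The extension of a point to `S[1/h]` -/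

section away

variable {k : Type u} [Field k] {S : Type u} [CommRing S] [Algebra k S] (h : S)
  {R : Type u} [CommRing R] [Algebra k R]

/-- The map `S[1/h] → R` induced by `x : S → R` with `x h` invertible. -/
noncomputable def awayLift (x : S →ₐ[k] R) (hx : IsUnit (x h)) : Localization.Away h →ₐ[k] R :=
  IsLocalization.Away.liftAlgHom (S := Localization.Away h) h (f := x) hx

theorem awayLift_comp (x : S →ₐ[k] R) (hx : IsUnit (x h)) :
    (awayLift h x hx).comp (IsScalarTower.toAlgHom k S (Localization.Away h)) = x :=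
  AlgHom.ext fun a => IsLocalization.Away.lift_eq h hx a

end away

/-! ### Regularity on the second chart from the first -/

section TwoChart

variable {R : Type u} [CommRing R] {𝔹 : TwoChart R}

/-- `f` is a non-zero-divisor on `B₁` when `r₁` is injective. -/
theorem f_mul_eq_zero (hr₁ : Function.Injective 𝔹.r₁) (m : ℕ) (x : 𝔹.B₁)
    (hx : 𝔹.f ^ m * x = 0) : x = 0 := by
  apply hr₁
  rw [map_zero]
  have h1 : 𝔹.r₁ 𝔹.f ^ m * 𝔹.r₁ x = 0 := by
    rw [← map_pow, ← map_mul, hx, map_zero]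
  have h2 : (𝔹.r₂ 𝔹.g ^ m * 𝔹.r₁ 𝔹.f ^ m) * 𝔹.r₁ x = 0 := by
    rw [mul_assoc, h1, mul_zero]
  rw [← mul_pow, mul_comm (𝔹.r₂ 𝔹.g), 𝔹.fg, one_pow, one_mul] at h2
  exact h2

/-- For an invertible first chart module and injective `r₁`, the restriction `ι₁` is injective. -/
theorem ι₁_injective (N : GluedModule 𝔹) [Module.Invertible 𝔹.B₁ N.N₁]
    (hr₁ : Function.Injective 𝔹.r₁) : Function.Injective N.ι₁ := by
  rw [injective_iff_map_eq_zero]
  intro n hn
  obtain ⟨m, hm⟩ := N.ker₁ n hn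
  obtain ⟨T, hT⟩ := exists_finset_sum_dual_apply_smul_eq 𝔹.B₁ N.N₁
  rw [← hT n]
  refine Finset.sum_eq_zero fun i _ => ?_
  have h1 : 𝔹.f ^ m * i.1 n = 0 := by
    rw [← smul_eq_mul, ← map_smul, hm, map_zero]
  rw [f_mul_eq_zero hr₁ m _ h1, zero_smul]

/-- A global section regular on the first chart is regular on the second. -/
theorem reg₂_of_reg₁ (N : GluedModule 𝔹) [Module.Invertible 𝔹.B₁ N.N₁]
    (hr₁ : Function.Injective 𝔹.r₁) (hr₂ : Function.Injective 𝔹.r₂)
    (s : N.N₁ × N.N₂) (hs : s ∈ N.H0)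
    (reg₁ : Function.Injective fun c : 𝔹.B₁ => c • s.1) :
    Function.Injective fun c : 𝔹.B₂ => c • s.2 := by
  have key : ∀ c : 𝔹.B₂, c • s.2 = 0 → c = 0 := by
    intro c hc
    apply hr₂
    rw [map_zero]
    obtain ⟨a, n, han⟩ := 𝔹.surj₁ (𝔹.r₂ c)
    have h1 : 𝔹.r₂ c • N.ι₁ s.1 = 0 := by
      rw [(N.mem_H0 s).1 hs, ← N.ι₂_smul, hc, map_zero]
    have h2 : 𝔹.r₁ a • N.ι₁ s.1 = 0 := by
      have h3 : 𝔹.r₁ a = 𝔹.r₁ 𝔹.f ^ n * 𝔹.r₂ c := by
        rw [han]
        calc 𝔹.r₁ a = 𝔹.r₁ a * (𝔹.r₁ 𝔹.f * 𝔹.r₂ 𝔹.g) ^ n := by rw [𝔹.fg, one_pow, mul_one]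
          _ = 𝔹.r₁ 𝔹.f ^ n * (𝔹.r₁ a * 𝔹.r₂ 𝔹.g ^ n) := by ring
      rw [h3, mul_smul, h1, smul_zero]
    have h4 : a • s.1 = 0 := by
      apply ι₁_injective N hr₁
      rw [N.ι₁_smul, h2, map_zero]
    have h5 : a = 0 := by
      apply reg₁
      show a • s.1 = (0 : 𝔹.B₁) • s.1
      rw [h4, zero_smul]
    rw [han, h5, map_zero, zero_mul]
  intro c c' hcc
  have hcc' : c • s.2 = c' • s.2 := hcc
  rw [← sub_eq_zero]
  apply key
  rw [sub_smul, hcc', sub_self]

end TwoChart

/-! ### The Hilbert chart side -/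

section Tensor

variable {k : Type u} [Field k] {A : Type u} [CommRing A] [Algebra k A]
  {S S' R : Type u} [CommRing S] [Algebra k S] [CommRing S'] [Algebra k S'] [CommRing R]
  [Algebra k R]

/-- Extension of ideals along `ι ⊗ id` then `ψ ⊗ id` is extension along `(ψ ∘ ι) ⊗ id`. -/
theorem map_map_tensor (ι : S →ₐ[k] S') (ψ : S' →ₐ[k] R) (I : Ideal (S ⊗[k] A)) :
    (I.map (Algebra.TensorProduct.map ι (AlgHom.id k A))).map
        (Algebra.TensorProduct.map ψ (AlgHom.id k A)).toRingHom =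
      I.map (Algebra.TensorProduct.map (ψ.comp ι) (AlgHom.id k A)) := by
  have hcomp : (Algebra.TensorProduct.map ψ (AlgHom.id k A)).comp
      (Algebra.TensorProduct.map ι (AlgHom.id k A)) =
      Algebra.TensorProduct.map (ψ.comp ι) (AlgHom.id k A) := by
    ext x
    · simp
    · simp
  rw [← hcomp]
  exact Ideal.map_map (Algebra.TensorProduct.map ι (AlgHom.id k A)).toRingHom
    (Algebra.TensorProduct.map ψ (AlgHom.id k A)).toRingHom

end Tensor

/-! ### The leaf -/

section Chart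

variable {k : Type u} [Field k] (𝒞 : CurveData k)

/-- Chart-1 regularity from freeness of the quotient by the zero ideal. -/
theorem reg₁_of_isFreeOn [IsAlgClosed k] {g : ℕ} {b : Fin g → 𝒞.A₁} {R : Type u} [CommRing R]
    [Algebra k R] (M : GluedModule (𝒞.chart R)) [Module.Invertible (𝒞.chart R).B₁ M.N₁]
    (s : M.N₁ × M.N₂) (hfree : IsFreeOn b (zeroIdeal₁ 𝒞 M s)) :
    Function.Injective fun c : (𝒞.chart R).B₁ => c • s.1 := by
  obtain ⟨B, -⟩ := hfree
  haveI : Module.Finite R ((R ⊗[k] 𝒞.A₁) ⧸ zeroIdeal₁ 𝒞 M s) := Module.Finite.of_basis B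
  haveI : Module.Projective R ((R ⊗[k] 𝒞.A₁) ⧸ zeroIdeal₁ 𝒞 M s) := Module.Projective.of_basis B
  haveI : Module.Invertible (𝒞.chart R).B₁ (zeroIdeal (𝒞.chart R).B₁ s.1) :=
    Lib.Inv.invertible_ideal_tensor₁ 𝒞 R (zeroIdeal₁ 𝒞 M s)
  exact smul_injective_of_invertible_zeroIdeal s.1

/-- The chart-1 zero ideal of a pair in the chart `(b, h)` is the pull-back of the universal
ideal along its point; hence of the zero ideal of any universal pair along the extension of
the point to `S_b[1/h]`. -/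
theorem zeroIdeal₁_eq_map {g : ℕ} {b : Fin g → 𝒞.A₁} {h : HilbChart k 𝒞.A₁ b}
    (U : UnivPair 𝒞 b h) {R : Type u} [CommRing R] [Algebra k R] (M : GluedModule (𝒞.chart R))
    (s : M.N₁ × M.N₂) (hs : InDivChart 𝒞 b h M s) :
    zeroIdeal (𝒞.chart R).B₁ s.1 =
      (zeroIdeal (𝒞.chart (Localization.Away h)).B₁ U.σ.1).map
        (𝒞.chartHom (awayLift h hs.point hs.unit)).ψ₁ := by
  have h1 : zeroIdeal (𝒞.chart (Localization.Away h)).B₁ U.σ.1 = (univIdeal k 𝒞.A₁ b).map
      (Algebra.TensorProduct.map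
        (IsScalarTower.toAlgHom k (HilbChart k 𝒞.A₁ b) (Localization.Away h))
        (AlgHom.id k 𝒞.A₁)) := U.zero₁
  have h2 : (Datum.ofHom hs.point).ideal = zeroIdeal (𝒞.chart R).B₁ s.1 :=
    ideal_ofHom_toHom_ofIdeal (zeroIdeal₁ 𝒞 M s) hs.free
  rw [h1]
  have h3 := map_map_tensor (A := 𝒞.A₁)
    (IsScalarTower.toAlgHom k (HilbChart k 𝒞.A₁ b) (Localization.Away h))
    (awayLift h hs.point hs.unit) (univIdeal k 𝒞.A₁ b)
  rw [awayLift_comp] at h3
  rw [← h2, ideal_ofHom_eq_map]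
  exact h3.symm

/-- **Leaf BCback.**  A line bundle with a section in the chart `(b, h)` is a base change of the
universal pair. -/
theorem exists_isBC [IsAlgClosed k] {g : ℕ} {b : Fin g → 𝒞.A₁} {h : HilbChart k 𝒞.A₁ b}
    (U : UnivPair 𝒞 b h) {R : Type u} [CommRing R] [Algebra k R] (M : GluedModule (𝒞.chart R))
    (hM : M.IsLineBundle) (s : M.N₁ × M.N₂) (hs : InDivChart 𝒞 b h M s) :
    ∃ ψ : Localization.Away h →ₐ[k] R, IsBC (𝒞.chartHom ψ) U.Q M := by
  haveI := hM.inv₁
  haveI := hM.inv₂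
  haveI := U.lineBundle.inv₁
  haveI := U.lineBundle.inv₂
  refine ⟨awayLift h hs.point hs.unit, ?_⟩
  have reg₁ : Function.Injective fun c : (𝒞.chart R).B₁ => c • s.1 :=
    reg₁_of_isFreeOn 𝒞 M s hs.free
  have reg₂ : Function.Injective fun c : (𝒞.chart R).B₂ => c • s.2 :=
    reg₂_of_reg₁ M (Lib.Chart.chart_r₁_injective 𝒞 R) (Lib.Chart.chart_r₂_injective 𝒞 R) s
      hs.can.mem reg₁
  exact isBC_of_zeroIdeal₁_map 𝒞 (awayLift h hs.point hs.unit) U.Q M U.lineBundle hM U.σ
    U.inDiv.can.mem s hs.can.mem reg₁ reg₂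
    ((span_sup_smul_top_eq_top_iff U.σ.2 _).1 U.inDiv.can.away)
    ((span_sup_smul_top_eq_top_iff s.2 _).1 hs.can.away)
    (zeroIdeal₁_eq_map 𝒞 U M s hs)

end Chart

end Fermat.Agent.S25.ATLAS.DIV.BCback
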